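import Fermat.Agent.Ribet.H634.LocCore

/-!
# INC-AN / LOCAL (helper634): regularity of `u = G / θt` at every place

`incAnLocal : IncAnLocalStatement` — for a cusp form `f ∈ S₂(Γ₀(M))` with integral `q`-expansion
`G`, a place `Q` of `F = modularFunctionFieldBar M`, a uniformiser `t` at `Q` and ANY `u ∈ F` with
`G = u · θ t`, the function `u` is regular at `Q`.

Proof.  `Q` is cut out by an embedding `σ_g : F → ℂ((z))` (Taylor expansion at a point `τ₀` of
`ℍ`, or expansion at `i∞`, of the translate by `g⁻¹`; helper282's dictionary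
`S29.H282.exists_placeOf_eqK`), with `ord_z ∘ σ_g = e · ord_Q`.  The analytic identity
`f ∣[2] g⁻¹ = (u ∘ g⁻¹) · D (t ∘ g⁻¹)` gives `ord_z σ_g(u) ≥ 1 - ord_z σ_g(t) = 1 - e > -e`.
-/

set_option autoImplicit false

noncomputable section

open UpperHalfPlane hiding I
open ModularCurve HahnSeries AlgebraicCurve ModularForm CongruenceSubgroup Derivative
open scoped MatrixGroups ModularForm Manifold

namespace Fermat.Agent.Ribet.H634

open Fermat.Agent.S24 Fermat.Agent.S24.H997 Fermat.Agent.S24.H708 Fermat.Agent.S29.H282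
  Fermat.Agent.S18.H602 Fermat.Agent.Ribet.H764.I3 Fermat.Agent.S24.H624

variable {N : ℕ} [NeZero N]

/-! ### the two kinds of expansions -/

theorem order_ofPowerSeries_nonneg (P : PowerSeries ℂ) :
    0 ≤ (HahnSeries.ofPowerSeries ℤ ℂ P).order := by
  by_contra h
  rw [not_le] at h
  by_cases h0 : HahnSeries.ofPowerSeries ℤ ℂ P = 0
  · rw [h0, order_zero] at h
    exact lt_irrefl _ h
  · exact coeff_order_eq_zero.not.mpr h0 (coeff_ofPowerSeries_neg P h)

/-- Taylor expansions -/
theorem hasLocalExp_taylor (f : CuspForm (Gamma0 N) 2) (γ : SL(2, ℤ)) (τ₀ : ℍ) :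
    HasLocalExp f γ ((holBase N).taylorExpansion (holBase_isHolo N) τ₀) := by
  set F : holoRing := ⟨⇑f ∣[(2 : ℤ)] γ, mdiff_slash f γ⟩ with hF
  refine ⟨HahnSeries.C kap, taylorLaurent τ₀ F, ?_, ?_, ?_⟩
  · intro h
    apply kap_ne_zero
    have := congrArg (fun s : LaurentSeries ℂ => s.coeff 0) h
    simpa using this
  · intro _
    rw [order_C]
    exact order_ofPowerSeries_nonneg _
  · intro Ha Hb Hc Hd hid
    have hR : F * (holBase N).toHolo (holBase_isHolo N) Hd
          * (holBase N).toHolo (holBase_isHolo N) Hb ^ 2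
        = (holBase N).toHolo (holBase_isHolo N) Hc *
          (derivH ((holBase N).toHolo (holBase_isHolo N) Ha)
              * (holBase N).toHolo (holBase_isHolo N) Hb
            - (holBase N).toHolo (holBase_isHolo N) Ha
              * derivH ((holBase N).toHolo (holBase_isHolo N) Hb)) :=
      Subtype.ext (funext fun τ => hid τ)
    have h2 := congrArg (taylorLaurent τ₀) hR
    simp only [map_mul, map_pow, map_sub, taylorLaurent_derivH] at h2
    show taylorLaurent τ₀ F * taylorLaurent τ₀ ((holBase N).toHolo (holBase_isHolo N) Hd)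
        * taylorLaurent τ₀ ((holBase N).toHolo (holBase_isHolo N) Hb) ^ 2
      = taylorLaurent τ₀ ((holBase N).toHolo (holBase_isHolo N) Hc) *
        (HahnSeries.C kap *
          (dq (taylorLaurent τ₀ ((holBase N).toHolo (holBase_isHolo N) Ha))
              * taylorLaurent τ₀ ((holBase N).toHolo (holBase_isHolo N) Hb)
            - taylorLaurent τ₀ ((holBase N).toHolo (holBase_isHolo N) Ha)
              * dq (taylorLaurent τ₀ ((holBase N).toHolo (holBase_isHolo N) Hb))))
    linear_combination h2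

/-- the expansion at `i∞` -/
theorem hasLocalExp_cusp (f : CuspForm (Gamma0 N) 2) (γ : SL(2, ℤ)) :
    HasLocalExp f γ (holBase N).qexpExpansion := by
  obtain ⟨φ, hφ, hφ0⟩ := hasQExp_slash f γ
  have hN : ((N : ℂ)⁻¹) ≠ 0 := inv_ne_zero (by exact_mod_cast NeZero.ne N)
  have hC : (HahnSeries.C ((N : ℂ)⁻¹) : LaurentSeries ℂ) ≠ 0 := fun h =>
    hN (HahnSeries.C_injective (h.trans (map_zero _).symm))
  have hs : (single (1 : ℤ) (1 : ℂ)) ≠ 0 := by
    intro h
    have := congrArg (fun s : LaurentSeries ℂ => s.coeff 1) h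
    simp at this
  refine ⟨HahnSeries.C ((N : ℂ)⁻¹) * single 1 1, φ, mul_ne_zero hC hs, ?_, ?_⟩
  · intro h0
    rw [order_mul hC hs, order_C, order_single one_ne_zero, zero_add]
    by_contra hlt
    rw [not_le] at hlt
    exact coeff_order_eq_zero.not.mpr h0 (hφ0 _ (by omega))
  · intro Ha Hb Hc Hd hid
    have hA := hasQExp_hol Ha
    have hB := hasQExp_hol Hb
    have hCc := hasQExp_hol Hc
    have hD := hasQExp_hol Hd
    have hL := (hφ.mul hD).mul (hB.pow 2)
    have hR := hCc.mul (((hasQExp_D hA).mul hB).sub (hA.mul (hasQExp_D hB)))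
    have hfun : (⇑f ∣[(2 : ℤ)] γ) * (Hd : ℍ → ℂ) * (Hb : ℍ → ℂ) ^ 2
        = (Hc : ℍ → ℂ) * (D (Ha : ℍ → ℂ) * (Hb : ℍ → ℂ) - (Ha : ℍ → ℂ) * D (Hb : ℍ → ℂ)) :=
      funext fun τ => hid τ
    rw [hfun] at hL
    have hser := hL.unique hR
    show φ * (holBase N).qexp Hd * (holBase N).qexp Hb ^ 2
      = (holBase N).qexp Hc * (HahnSeries.C ((N : ℂ)⁻¹) * single 1 1 *
          (dq ((holBase N).qexp Ha) * (holBase N).qexp Hb
            - (holBase N).qexp Ha * dq ((holBase N).qexp Hb)))
    rw [hser]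
    simp only [thN]
    ring

/-! ### the finite points are Taylor expansions -/

theorem pointData_X_heq {B : HolBase N} {a a' : ℂ} {ε ε' : SL(2, ℤ)} (ha : a = a') (hε : ε = ε')
    (P : PointData B a ε) (Q : PointData B a' ε') (h : HEq P Q) : P.X = Q.X := by
  subst ha hε
  rw [eq_of_heq h]

theorem pointAt_X {K : Type*} [Field K] [Algebra ℚ K] (ι : K →+* ℂ) (a : K) :
    ∃ τ₀ : ℍ, (pointAt ι (analyticCore N) a).X
      = (holBase N).taylorExpansion (holBase_isHolo N) τ₀ := by
  classical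
  by_cases h0 : ι a = 0
  · have hε : epsAt ι a = ModularGroup.S * ModularGroup.T := by rw [epsAt, if_pos h0]
    refine ⟨_, (pointData_X_heq h0 hε _ (analyticCore N).at0 ?_).trans rfl⟩
    unfold pointAt
    rw [dif_pos h0]
    simp only [eq_mpr_eq_cast, cast_heq_iff_heq]
    exact HEq.rfl
  · by_cases h1 : ι a = 1728
    · have hε : epsAt ι a = ModularGroup.S := by rw [epsAt, if_neg h0, if_pos h1]
      refine ⟨_, (pointData_X_heq h1 hε _ (analyticCore N).at1728 ?_).trans rfl⟩
      unfold pointAt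
      rw [dif_neg h0, dif_pos h1]
      simp only [eq_mpr_eq_cast, cast_heq_iff_heq]
      exact HEq.rfl
    · have hε : epsAt ι a = 1 := by rw [epsAt, if_neg h0, if_neg h1]
      refine ⟨_, (pointData_X_heq rfl hε _ ((analyticCore N).generic (ι a) h0 h1) ?_).trans rfl⟩
      unfold pointAt
      rw [dif_neg h0, dif_neg h1]
      simp only [eq_mpr_eq_cast, cast_heq_iff_heq]
      exact HEq.rfl

/-! ### the main theorem -/

theorem mem_of_order_bound {Q : Place Kbar (FFK Kbar N)} {t u : FFK Kbar N} (ht : Q.ord t = 1)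
    {k : ℕ} (hk : 0 < k) {ot ou : ℤ} (h1 : ot = k * Q.ord t) (h2 : ou = k * Q.ord u)
    (hb : ot ≠ 0 → 1 - ot ≤ ou) : u ∈ Q.toValuationSubring := by
  apply H117.mem_of_ord_nonneg
  rw [ht, mul_one] at h1
  have hk' : (0 : ℤ) < k := by exact_mod_cast hk
  have h3 := hb (by omega)
  rw [h1, h2] at h3
  by_contra hneg
  rw [not_le] at hneg
  have : (k : ℤ) * Q.ord u ≤ (k : ℤ) * (-1) := by
    apply mul_le_mul_of_nonneg_left _ hk'.le
    omega
  omega

/-- **INC-AN / LOCAL.** -/
theorem incAnLocal : IncAnLocalStatement := by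
  intro M _ f c hc Q t ht u t' hθ hG
  by_cases hu0 : u = 0
  · rw [hu0]
    exact zero_mem _
  obtain ⟨ra, rb, hb, hta⟩ := exists_div_inclRNK Kbar M t
  obtain ⟨rc, rd, hd, hua⟩ := exists_div_inclRNK Kbar M u
  let S : Setup M := ⟨f, c, hc, t, u, t', hθ, hG, ra, rb, rc, rd, hb, hd, hta, hua⟩
  rcases exists_placeOf_eqK ιK (analyticCore M) Q with ⟨x, hx⟩ | ⟨a, x, hx⟩
  · obtain ⟨g, rfl⟩ := QuotientGroup.mk_surjective x
    have h1 := H117.order_eq (dataInfK ιK (analyticCore M)) (g : XX M) t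
    have h2 := H117.order_eq (dataInfK ιK (analyticCore M)) (g : XX M) u
    rw [hx] at h1 h2
    have hσ : (dataInfK ιK (analyticCore M)).σ (g : XX M)
        = sigmaGK ιK (holBase M) (holBase M).qexpExpansion g :=
      sigmaXK_mk ιK (holBase M) (holBase M).qexpExpansion g
    rw [hσ] at h1 h2
    exact mem_of_order_bound ht (H117.mult_pos _ _) h1 h2
      (fun hT => S.order_bound g _ (hasLocalExp_cusp f g⁻¹) hu0 hT)
  · obtain ⟨g, rfl⟩ := QuotientGroup.mk_surjective x
    obtain ⟨τ₀, hτ₀⟩ := pointAt_X (N := M) ιK a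
    have h1 := H117.order_eq (dataFinK ιK (analyticCore M) a) (g : XX M) t
    have h2 := H117.order_eq (dataFinK ιK (analyticCore M) a) (g : XX M) u
    rw [hx] at h1 h2
    have hσ : (dataFinK ιK (analyticCore M) a).σ (g : XX M)
        = sigmaGK ιK (holBase M) ((holBase M).taylorExpansion (holBase_isHolo M) τ₀) g := by
      rw [dataFinK_σ, hτ₀]
      exact sigmaXK_mk ιK (holBase M) _ g
    rw [hσ] at h1 h2
    exact mem_of_order_bound ht (H117.mult_pos _ _) h1 h2
      (fun hT => S.order_bound g _ (hasLocalExp_taylor f g⁻¹ τ₀) hu0 hT)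

end Fermat.Agent.Ribet.H634
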