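import Fermat.Agent.Ribet.H764.I3Spec
import Fermat.Prelude.Def_ModularCurve_ArithmeticGalois

/-!
# Row 38, WALL-p, leaf I3 / INC, analytic half **INC-AN** (helper634; frozen interface + glue)

Characteristic-0 input of `H764.I3.IncStatement`: the `q`-expansion of a weight-2 cusp form of
level `Γ₀(M)` with integral `q`-expansion is (the `q`-series of) a HOLOMORPHIC differential of
`X₀(M)` over `ℚ̄`, in exactly the place-by-place language of `H764.I3.IsHoloSeries`, but for the
characteristic-0 function field `F = modularFunctionFieldBar M ⊆ ℚ̄((q))`.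

* `IsHoloSeriesBar M g` : for every place `Q` of `F` and every uniformiser `t` at `Q` there is
  `u ∈ F`, regular at `Q`, with `g = u·θt` (`θ = q d/dq`), i.e. `g·dq/q = u·dt`.
* `IncAnStatement`      : every cusp form `f ∈ S₂(Γ₀(M))` with `a_n(f) = c n ∈ ℤ` has
  `IsHoloSeriesBar M (∑ c n qⁿ)`.

Split (PROVED glue `incAn_of`):
* `IncAnExistStatement` (EXIST, algebra + function-field membership): for a uniformiser `t`
  there is `u ∈ F` with `g = u·θt`  (`g/θj ∈ F`, and `θj/θt ∈ F` by the chain rule);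
* `IncAnLocalStatement` (LOCAL, analysis): ANY `u ∈ F` with `g = u·θt`, `t` a uniformiser at
  `Q`, is regular at `Q`.
-/

set_option autoImplicit false

open CuspForm ModularFormClass ModularCurve AlgebraicCurve

namespace Fermat.Agent.Ribet.H634

open Fermat.Agent.Ribet.H764.I3

/-- `g·dq/q` is a holomorphic differential of `F = modularFunctionFieldBar M` (function field of
`X₀(M)` over `ℚ̄`): for every place `Q` and every uniformiser `t` at `Q`, `g = u·θt` with `u ∈ F`
regular at `Q`. -/
def IsHoloSeriesBar (M : ℕ) [NeZero M] (g : PowerSeries (AlgebraicClosure ℚ)) : Prop :=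
  ∀ (Q : Place (AlgebraicClosure ℚ) (modularFunctionFieldBar M))
    (t : modularFunctionFieldBar M), Q.ord t = 1 →
      ∃ (u : modularFunctionFieldBar M) (t' : LaurentSeries (AlgebraicClosure ℚ)),
        IsTheta (t : LaurentSeries (AlgebraicClosure ℚ)) t' ∧ u ∈ Q.toValuationSubring ∧
        HahnSeries.ofPowerSeries ℤ (AlgebraicClosure ℚ) g =
          (u : LaurentSeries (AlgebraicClosure ℚ)) * t'

/-- (INC-AN) weight-2 cusp forms of level `Γ₀(M)` with integral `q`-expansion are holomorphic
differentials of `X₀(M)_{ℚ̄}`. -/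
def IncAnStatement : Prop :=
  ∀ (M : ℕ) [NeZero M] (f : CuspForm (CongruenceSubgroup.Gamma0 M) 2) (c : ℕ → ℤ),
    (∀ n, qCoeff f n = (c n : ℂ)) →
      IsHoloSeriesBar M (PowerSeries.mk fun n => (c n : AlgebraicClosure ℚ))

/-- (INC-AN / EXIST) for a uniformiser `t` (at some place) the quotient `g/θt` lies in `F`. -/
def IncAnExistStatement : Prop :=
  ∀ (M : ℕ) [NeZero M] (f : CuspForm (CongruenceSubgroup.Gamma0 M) 2) (c : ℕ → ℤ),
    (∀ n, qCoeff f n = (c n : ℂ)) →
    ∀ (Q : Place (AlgebraicClosure ℚ) (modularFunctionFieldBar M))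
      (t : modularFunctionFieldBar M), Q.ord t = 1 →
      ∃ (u : modularFunctionFieldBar M) (t' : LaurentSeries (AlgebraicClosure ℚ)),
        IsTheta (t : LaurentSeries (AlgebraicClosure ℚ)) t' ∧
        HahnSeries.ofPowerSeries ℤ (AlgebraicClosure ℚ)
            (PowerSeries.mk fun n => (c n : AlgebraicClosure ℚ)) =
          (u : LaurentSeries (AlgebraicClosure ℚ)) * t'

/-- (INC-AN / LOCAL) any `u ∈ F` with `g = u·θt`, `t` a uniformiser at `Q`, is regular at `Q`. -/
def IncAnLocalStatement : Prop :=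
  ∀ (M : ℕ) [NeZero M] (f : CuspForm (CongruenceSubgroup.Gamma0 M) 2) (c : ℕ → ℤ),
    (∀ n, qCoeff f n = (c n : ℂ)) →
    ∀ (Q : Place (AlgebraicClosure ℚ) (modularFunctionFieldBar M))
      (t : modularFunctionFieldBar M), Q.ord t = 1 →
      ∀ (u : modularFunctionFieldBar M) (t' : LaurentSeries (AlgebraicClosure ℚ)),
        IsTheta (t : LaurentSeries (AlgebraicClosure ℚ)) t' →
        HahnSeries.ofPowerSeries ℤ (AlgebraicClosure ℚ)
            (PowerSeries.mk fun n => (c n : AlgebraicClosure ℚ)) =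
          (u : LaurentSeries (AlgebraicClosure ℚ)) * t' →
        u ∈ Q.toValuationSubring

/-- **INC-AN from EXIST and LOCAL.** -/
theorem incAn_of (hE : IncAnExistStatement) (hL : IncAnLocalStatement) : IncAnStatement := by
  intro M _ f c hc Q t ht
  obtain ⟨u, t', hθ, hu⟩ := hE M f c hc Q t ht
  exact ⟨u, t', hθ, hL M f c hc Q t ht u t' hθ hu, hu⟩

end Fermat.Agent.Ribet.H634
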