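import Fermat.Agent.S18.H602.LaurentDeriv

/-!
# INC-AN / LOCAL (helper634), part 1: formal Laurent series

`dq = d/dz` on `C((z))`, `C` a field of characteristic `0`:

* `order_dq`           : `ord (dw/dz) = ord w - 1` if `ord w ≠ 0`;
* `dq_div_mul_sq`      : quotient rule;
* `local_order_eq`     : if `φ·δ·β² = γ·κ·(α'β - αβ')` then `φ = (γ/δ)·κ·d(α/β)/dz`, hence
  `ord φ = ord (γ/δ) + ord κ + ord (α/β) - 1`.
-/

set_option autoImplicit false

noncomputable section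

open HahnSeries

namespace Fermat.Agent.Ribet.H634

open Fermat.Agent.S18.H602

variable {C : Type*} [Field C] [CharZero C]

/-- `ord (dw/dz) = ord w - 1` when `ord w ≠ 0`. -/
theorem order_dq {w : LaurentSeries C} (hw : w ≠ 0) (h0 : w.order ≠ 0) :
    dq w ≠ 0 ∧ (dq w).order = w.order - 1 := by
  have hc : (dq w).coeff (w.order - 1) ≠ 0 := by
    rw [dq_coeff, sub_add_cancel, zsmul_eq_mul]
    exact mul_ne_zero (by exact_mod_cast h0) (coeff_order_eq_zero.not.mpr hw)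
  have hne : dq w ≠ 0 := ne_zero_of_coeff_ne_zero hc
  refine ⟨hne, le_antisymm (order_le_of_coeff_ne_zero hc) ?_⟩
  by_contra hlt
  rw [not_le] at hlt
  have h1 := coeff_order_eq_zero.not.mpr hne
  apply h1
  rw [dq_coeff]
  have : w.coeff ((dq w).order + 1) = 0 := coeff_eq_zero_of_lt_order (by omega)
  rw [this, smul_zero]

omit [CharZero C] in
/-- quotient rule, denominators cleared -/
theorem dq_div_mul_sq (x y : LaurentSeries C) (hy : y ≠ 0) :
    dq (x / y) * y ^ 2 = dq x * y - x * dq y := by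
  obtain ⟨w, rfl⟩ : ∃ w, x = w * y := ⟨x / y, (div_mul_cancel₀ x hy).symm⟩
  rw [mul_div_cancel_right₀ w hy, dq_mul]
  ring

/-- **The local computation.**  From the cleared identity `φ δ β² = γ κ (α' β - α β')` one gets
`φ = (γ/δ) κ (α/β)'` and the order of `φ`. -/
theorem local_order_eq {α β γ δ φ κ : LaurentSeries C} (hα : α ≠ 0) (hβ : β ≠ 0) (hγ : γ ≠ 0)
    (hδ : δ ≠ 0) (hκ : κ ≠ 0)
    (hid : φ * δ * β ^ 2 = γ * (κ * (dq α * β - α * dq β)))
    (hT : (α / β).order ≠ 0) :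
    φ ≠ 0 ∧ φ.order = (γ / δ).order + κ.order + ((α / β).order - 1) := by
  have hT0 : α / β ≠ 0 := div_ne_zero hα hβ
  obtain ⟨hd0, hdord⟩ := order_dq hT0 hT
  have hU0 : γ / δ ≠ 0 := div_ne_zero hγ hδ
  have hφ : φ = γ / δ * κ * dq (α / β) := by
    have hβ2 : β ^ 2 ≠ 0 := pow_ne_zero _ hβ
    have h1 : φ * (δ * β ^ 2) = γ / δ * κ * dq (α / β) * (δ * β ^ 2) := by
      rw [← mul_assoc, hid, ← dq_div_mul_sq α β hβ]
      field_simp
    exact mul_right_cancel₀ (mul_ne_zero hδ hβ2) h1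
  refine ⟨?_, ?_⟩
  · rw [hφ]
    exact mul_ne_zero (mul_ne_zero hU0 hκ) hd0
  · rw [hφ, order_mul (mul_ne_zero hU0 hκ) hd0, order_mul hU0 hκ, hdord]

end Fermat.Agent.Ribet.H634
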