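import Fermat.Agent.Ribet.H634.LocIdentity
import Fermat.Agent.Ribet.H634.LocFormal

/-!
# INC-AN / LOCAL (helper634), part 6: the order bound at an expansion

`HasLocalExp f γ X` : the expansion `X` (Taylor expansion at a point, or expansion at `i∞`)
carries an expansion `φ` of `f ∣[2] γ` and a factor `κ` with `ord κ ≤ ord φ` such that `D` becomes
`κ · d/dz`.  Then for `G = u · θ t`:

  `1 - ord_z σ_g(t) ≤ ord_z σ_g(u)`     (`Setup.order_bound`).
-/

set_option autoImplicit false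

noncomputable section

open UpperHalfPlane hiding I
open ModularCurve HahnSeries AlgebraicCurve ModularForm CongruenceSubgroup Derivative
open scoped MatrixGroups ModularForm Manifold

namespace Fermat.Agent.Ribet.H634

open Fermat.Agent.S24 Fermat.Agent.S24.H997 Fermat.Agent.S24.H708 Fermat.Agent.S29.H282
  Fermat.Agent.S18.H602 Fermat.Agent.Ribet.H764.I3 Fermat.Agent.S24.H624

variable {N : ℕ} [NeZero N]

/-- the expansion `X` sees `f ∣[2] γ` and the derivative -/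
def HasLocalExp (f : CuspForm (Gamma0 N) 2) (γ : SL(2, ℤ)) (X : Expansion (holBase N)) : Prop :=
  ∃ κ φ : LaurentSeries ℂ, κ ≠ 0 ∧ (φ ≠ 0 → κ.order ≤ φ.order) ∧
    ∀ Ha Hb Hc Hd : (holBase N).Hol,
      (∀ τ : ℍ, (⇑f ∣[(2 : ℤ)] γ) τ * (Hd : ℍ → ℂ) τ * (Hb : ℍ → ℂ) τ ^ 2
        = (Hc : ℍ → ℂ) τ * (D (Ha : ℍ → ℂ) τ * (Hb : ℍ → ℂ) τ
            - (Ha : ℍ → ℂ) τ * D (Hb : ℍ → ℂ) τ)) →
      φ * X.E Hd * X.E Hb ^ 2
        = X.E Hc * (κ * (dq (X.E Ha) * X.E Hb - X.E Ha * dq (X.E Hb)))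

namespace Setup

variable (S : Setup N) (g : SL(2, ℤ))

/-- **The translated identity.** -/
theorem identity_translate (τ : ℍ) :
    (⇑S.f ∣[(2 : ℤ)] g⁻¹) τ * ((holBase N).compH g⁻¹ S.D' : ℍ → ℂ) τ
        * ((holBase N).compH g⁻¹ S.B : ℍ → ℂ) τ ^ 2
      = ((holBase N).compH g⁻¹ S.C : ℍ → ℂ) τ *
          (D ((holBase N).compH g⁻¹ S.A : ℍ → ℂ) τ * ((holBase N).compH g⁻¹ S.B : ℍ → ℂ) τ
            - ((holBase N).compH g⁻¹ S.A : ℍ → ℂ) τ
              * D ((holBase N).compH g⁻¹ S.B : ℍ → ℂ) τ) := by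
  have h := S.identity_on_H (g⁻¹ • τ)
  have hA := D_comp_smul (mdiff_hol S.A) g⁻¹ τ
  have hB := D_comp_smul (mdiff_hol S.B) g⁻¹ τ
  change D ((holBase N).compH g⁻¹ S.A : ℍ → ℂ) τ = _ at hA
  change D ((holBase N).compH g⁻¹ S.B : ℍ → ℂ) τ = _ at hB
  rw [hA, hB, SL_slash_apply]
  simp only [HolBase.compH_apply]
  linear_combination (denom ((g⁻¹ : SL(2, ℤ)) : GL (Fin 2) ℝ) τ) ^ (-2 : ℤ) * h

theorem sigma_t (X : Expansion (holBase N)) :
    sigmaGK ιK (holBase N) X g S.t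
      = X.E ((holBase N).compH g⁻¹ S.A) / X.E ((holBase N).compH g⁻¹ S.B) := by
  rw [S.ht, map_div₀, sigmaGK_inclRNK, sigmaGK_inclRNK]
  rfl

theorem sigma_u (X : Expansion (holBase N)) :
    sigmaGK ιK (holBase N) X g S.u
      = X.E ((holBase N).compH g⁻¹ S.C) / X.E ((holBase N).compH g⁻¹ S.D') := by
  rw [S.hu, map_div₀, sigmaGK_inclRNK, sigmaGK_inclRNK]
  rfl

omit S in
theorem E_ne_zero (X : Expansion (holBase N)) {r : RNK Kbar N} (hr : r ≠ 0) :
    X.E ((holBase N).compH g⁻¹ (bridgeK ιK (holBase N) r)) ≠ 0 := by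
  intro h
  apply hr
  apply sGK_injective ιK (holBase N) X g
  rw [sGK_apply, h, map_zero]

/-- **The order bound.** -/
theorem order_bound (X : Expansion (holBase N)) (hX : HasLocalExp S.f g⁻¹ X) (hu : S.u ≠ 0)
    (hT : (sigmaGK ιK (holBase N) X g S.t).order ≠ 0) :
    1 - (sigmaGK ιK (holBase N) X g S.t).order ≤ (sigmaGK ιK (holBase N) X g S.u).order := by
  obtain ⟨κ, φ, hκ, hle, htr⟩ := hX
  have ha : S.ra ≠ 0 := by
    intro h
    apply hT
    rw [S.ht, h, map_zero, zero_div, map_zero, order_zero]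
  have hc : S.rc ≠ 0 := by
    intro h
    apply hu
    rw [S.hu, h, map_zero, zero_div]
  have hid := htr _ _ _ _ (S.identity_translate g)
  rw [S.sigma_t g X] at hT ⊢
  rw [S.sigma_u g X]
  obtain ⟨hφ0, hφ⟩ := local_order_eq (E_ne_zero g X ha) (E_ne_zero g X S.hb)
    (E_ne_zero g X hc) (E_ne_zero g X S.hd) hκ hid hT
  have := hle hφ0
  simp only [Setup.A, Setup.B, Setup.C, Setup.D'] at hT ⊢
  omega

end Setup

end Fermat.Agent.Ribet.H634
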