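import Fermat.Agent.S24.Mod.H708QInf
import Fermat.Agent.S28.H25.DerivQExp
import Fermat.Agent.S18.H602.LaurentDeriv

/-!
# INC-AN / LOCAL (helper634), part 3: expansion at `i∞` of the derivative

If `f` is holomorphic on `ℍ` with convergent Laurent expansion `φ` in `z = exp (2πiτ/N)`, then
`D f = (2πi)⁻¹ df/dτ` has the expansion `N⁻¹ · z · dφ/dz` (`hasQExp_D`).
-/

set_option autoImplicit false

noncomputable section

open UpperHalfPlane hiding I
open Complex Derivative Function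
open scoped Manifold Topology Real

namespace Fermat.Agent.Ribet.H634

open Fermat.Agent.S24.H708 Fermat.Agent.S18.H602 Fermat.Agent.S28.H25

/-- `N⁻¹ · z d/dz` on Laurent series -/
def thN (N : ℕ) (φ : LaurentSeries ℂ) : LaurentSeries ℂ :=
  HahnSeries.C ((N : ℂ)⁻¹) * (HahnSeries.single 1 1 * dq φ)

theorem thN_coeff (N : ℕ) (φ : LaurentSeries ℂ) (n : ℤ) :
    (thN N φ).coeff n = (N : ℂ)⁻¹ * ((n : ℂ) * φ.coeff n) := by
  rw [thN, HahnSeries.C_mul_eq_smul, HahnSeries.coeff_smul, HahnSeries.coeff_single_mul, one_mul,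
    dq_coeff, sub_add_cancel, zsmul_eq_mul, smul_eq_mul]

variable {N : ℕ} [NeZero N]

theorem D_qh_pow (M : ℕ) (τ : ℍ) :
    D (qh N ^ M) τ = (M : ℂ) * (N : ℂ)⁻¹ * (qh N ^ M) τ := by
  have hN : (N : ℂ) ≠ 0 := by exact_mod_cast NeZero.ne N
  have hpi : (2 * (π : ℂ) * I) ≠ 0 := by simp [Real.pi_ne_zero]
  have heq : ((qh N ^ M) ∘ ofComplex) =ᶠ[𝓝 (τ : ℂ)] fun w => Periodic.qParam (N : ℝ) w ^ M := by
    filter_upwards [isOpen_upperHalfPlaneSet.mem_nhds τ.im_pos] with w hw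
    simp only [Function.comp_apply, Pi.pow_apply, qh_apply, ofComplex_apply_of_im_pos hw]
  have hd : HasDerivAt (fun w => Periodic.qParam (N : ℝ) w ^ M)
      ((M : ℂ) * Periodic.qParam (N : ℝ) (τ : ℂ) ^ (M - 1) *
        (Periodic.qParam (N : ℝ) (τ : ℂ) * (2 * π * I / (N : ℝ)))) (τ : ℂ) :=
    (hasDerivAt_qParam (N : ℝ) (τ : ℂ)).pow M
  rw [normalizedDerivOfComplex, heq.deriv_eq, hd.deriv]
  simp only [Pi.pow_apply, qh_apply]
  rcases M with _ | M
  · simp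
  · rw [Nat.add_sub_cancel, pow_succ]
    push_cast
    field_simp

/-- **Termwise differentiation at the cusp.** -/
theorem hasQExp_D {f : ℍ → ℂ} {φ : LaurentSeries ℂ} (hf : HasQExp N f φ) :
    HasQExp N (D f) (thN N φ) := by
  have hol : MDiff f := hf.mdiff
  obtain ⟨M, hM⟩ := hf.1.bdd
  have hF : IsHolInf N (f * qh N ^ M) := hf.1.isHolInf_mul_pow hM
  have hφ : φ = lau N M f := by rw [← hf.2]; exact qexpFun_eq_lau hf.1 hM
  refine HasQExp.of_hasSum (normalizedDerivOfComplex_mdifferentiable hol) fun τ => ?_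
  have hlow : ∀ n : ℤ, n < -(M : ℤ) → (thN N φ).coeff n = 0 := by
    intro n hn
    rw [thN_coeff, hφ, lau_coeff_of_lt M f hn, mul_zero, mul_zero]
  rw [hasSum_int_iff_nat _ M hlow _ (qh_ne_zero N τ)]
  -- the two sums
  have h1 := hasSum_D_of_bounded (hpos N) hF.per hF.hol hF.bdd τ
  have h2 := (hF.hasSum τ).mul_left ((M : ℂ) * (N : ℂ)⁻¹)
  have h3 := h1.sub h2
  have hD : D (f * qh N ^ M) τ = D f τ * qh N τ ^ M + f τ * ((M : ℂ) * (N : ℂ)⁻¹ * qh N τ ^ M) := by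
    rw [normalizedDerivOfComplex_mul f (qh N ^ M) hol ((mdiff_qh N).pow M)]
    simp only [Pi.add_apply, Pi.mul_apply, D_qh_pow, Pi.pow_apply]
  have hval : D (f * qh N ^ M) τ - (M : ℂ) * (N : ℂ)⁻¹ * (f * qh N ^ M) τ = D f τ * qh N τ ^ M := by
    rw [hD]
    simp only [Pi.mul_apply, Pi.pow_apply]
    ring
  rw [hval] at h3
  have key : ∀ m : ℕ, ((N : ℂ)⁻¹ * ((m : ℂ) * (qExpansion (N : ℝ) (f * qh N ^ M)).coeff m)) •
        Periodic.qParam (N : ℝ) (τ : ℂ) ^ m -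
        (M : ℂ) * (N : ℂ)⁻¹ * ((qExpansion (N : ℝ) (f * qh N ^ M)).coeff m * qh N τ ^ m)
      = (thN N φ).coeff ((m : ℤ) - M) * qh N τ ^ m := by
    intro m
    rw [thN_coeff, hφ, lau_coeff_natCast_sub, smul_eq_mul, qh_apply]
    push_cast
    ring
  exact (funext key) ▸ h3

end Fermat.Agent.Ribet.H634
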