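import Fermat.Agent.S24.Mod.H708QInf
import Fermat.Agent.S24.Inf.Subst
import Fermat.Agent.S24.Inf.Unique
import Mathlib.NumberTheory.ModularForms.Identities
import Mathlib.NumberTheory.ModularForms.CongruenceSubgroups

/-!
# INC-AN / LOCAL (helper634), part 4: expansions at the cusps of a cusp form of weight 2

For `f ∈ S₂(Γ₀(N))` and `γ ∈ SL₂(ℤ)`:

* `isHolInf_slash`     : `f ∣[2] γ` is holomorphic, `N`-periodic and bounded at `i∞`;
* `hasQExp_slash`      : it has a power series expansion in `z = exp (2πiτ/N)` WITHOUT constant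
                         term;
* `hasQExp_cuspForm`   : `f` itself has the expansion `(∑ aₙ qⁿ)(q = z^N)`.
-/

set_option autoImplicit false

noncomputable section

open UpperHalfPlane ModularForm CongruenceSubgroup Function ModularCurve
open scoped MatrixGroups ModularForm Manifold

namespace Fermat.Agent.Ribet.H634

open Fermat.Agent.S24 Fermat.Agent.S24.H708

variable {N : ℕ}

theorem conj_T_pow_mem_Gamma0 (γ : SL(2, ℤ)) :
    γ * ModularGroup.T ^ (N : ℤ) * γ⁻¹ ∈ Gamma0 N := by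
  have h1 : ModularGroup.T ^ (N : ℤ) ∈ Gamma N := by
    simpa using ModularGroup_T_pow_mem_Gamma (N : ℤ) (N : ℤ) dvd_rfl
  have h2 : γ * ModularGroup.T ^ (N : ℤ) * γ⁻¹ ∈ Gamma N :=
    (Gamma_normal (N := N)).conj_mem _ h1 γ
  rw [Gamma_mem] at h2
  rw [Gamma0_mem]
  exact h2.2.2.1

theorem T_mem_Gamma0 : ModularGroup.T ∈ Gamma0 N := by
  rw [Gamma0_mem]
  simp [ModularGroup.T]

theorem slash_T_zpow_apply (F : ℍ → ℂ) (k n : ℤ) (τ : ℍ) :
    (F ∣[k] (ModularGroup.T ^ n)) τ = F ((n : ℝ) +ᵥ τ) := by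
  rw [SL_slash_apply, modular_T_zpow_smul]
  have : denom ((ModularGroup.T ^ n : SL(2, ℤ)) : GL (Fin 2) ℝ) (τ : ℂ) = 1 := by
    rw [ModularGroup.denom_apply, ModularGroup.coe_T_zpow]
    simp
  rw [this, one_zpow, mul_one]

theorem slash_eq_of_mem (f : CuspForm (Gamma0 N) 2) {δ : SL(2, ℤ)} (hδ : δ ∈ Gamma0 N) :
    ⇑f ∣[(2 : ℤ)] δ = ⇑f := by
  rw [SL_slash]
  exact SlashInvariantForm.slash_action_eqn f _ (Subgroup.mem_map_of_mem _ hδ)

theorem slash_vadd (f : CuspForm (Gamma0 N) 2) (γ : SL(2, ℤ)) (τ : ℍ) :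
    (⇑f ∣[(2 : ℤ)] γ) (((N : ℤ) : ℝ) +ᵥ τ) = (⇑f ∣[(2 : ℤ)] γ) τ := by
  rw [← slash_T_zpow_apply (⇑f ∣[(2 : ℤ)] γ) 2 (N : ℤ) τ, ← SlashAction.slash_mul]
  have h : γ * ModularGroup.T ^ (N : ℤ) = (γ * ModularGroup.T ^ (N : ℤ) * γ⁻¹) * γ := by group
  rw [h, SlashAction.slash_mul, slash_eq_of_mem f (conj_T_pow_mem_Gamma0 γ)]

theorem periodic_of_vadd {F : ℍ → ℂ} {h : ℝ} (hF : ∀ τ : ℍ, F (h +ᵥ τ) = F τ) :
    Periodic (F ∘ ofComplex) h := by
  intro w
  by_cases hw : 0 < Complex.im w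
  · have hw' : 0 < Complex.im (w + h) := by simpa using hw
    simp only [comp_apply, ofComplex_apply_of_im_pos hw', ofComplex_apply_of_im_pos hw]
    have := hF ⟨w, hw⟩
    convert this using 2
    ext
    simp [add_comm]
  · have hw0 : Complex.im w ≤ 0 := not_lt.mp hw
    have hw' : Complex.im (w + h) ≤ 0 := by simpa using hw0
    simp only [comp_apply]
    rw [ofComplex_apply_of_im_nonpos hw', ofComplex_apply_of_im_nonpos hw0]

theorem periodic_slash (f : CuspForm (Gamma0 N) 2) (γ : SL(2, ℤ)) :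
    Periodic ((⇑f ∣[(2 : ℤ)] γ) ∘ ofComplex) (N : ℝ) :=
  periodic_of_vadd fun τ => by simpa using slash_vadd f γ τ

theorem mdiff_slash (f : CuspForm (Gamma0 N) 2) (γ : SL(2, ℤ)) : MDiff (⇑f ∣[(2 : ℤ)] γ) := by
  have := (ModularFormClass.holo f).slash 2 (γ : GL (Fin 2) ℝ)
  rwa [← SL_slash] at this

variable [NeZero N]

theorem isHolInf_slash (f : CuspForm (Gamma0 N) 2) (γ : SL(2, ℤ)) :
    IsHolInf N (⇑f ∣[(2 : ℤ)] γ) where
  hol := mdiff_slash f γ
  per := periodic_slash f γ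
  bdd := (CuspFormClass.zero_at_infty_slash f γ).isBoundedAtImInfty

theorem qExpansion_slash_coeff_zero (f : CuspForm (Gamma0 N) 2) (γ : SL(2, ℤ)) :
    (qExpansion (N : ℝ) (⇑f ∣[(2 : ℤ)] γ)).coeff 0 = 0 := by
  rw [qExpansion_coeff_zero (hpos N) (isHolInf_slash f γ).analyticAt (periodic_slash f γ)]
  exact (CuspFormClass.zero_at_infty_slash f γ).valueAtInfty_eq_zero

/-- **The translates of a cusp form vanish at `i∞`.** -/
theorem hasQExp_slash (f : CuspForm (Gamma0 N) 2) (γ : SL(2, ℤ)) :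
    ∃ φ : LaurentSeries ℂ, HasQExp N (⇑f ∣[(2 : ℤ)] γ) φ ∧ ∀ n : ℤ, n ≤ 0 → φ.coeff n = 0 := by
  refine ⟨HahnSeries.ofPowerSeries ℤ ℂ (qExpansion (N : ℝ) (⇑f ∣[(2 : ℤ)] γ)),
    ⟨IsMerInf.of_isHolInf (isHolInf_slash f γ), qexpFun_of_isHolInf (isHolInf_slash f γ)⟩, ?_⟩
  intro n hn
  rcases hn.lt_or_eq with h | h
  · rw [PowerSeries.coeff_coe, if_pos h]
  · subst h
    have := qExpansion_slash_coeff_zero f γ
    rw [PowerSeries.coeff_coe, if_neg (lt_irrefl _)]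
    simpa using this

theorem isHolInf_one (f : CuspForm (Gamma0 N) 2) : IsHolInf 1 (⇑f) where
  hol := ModularFormClass.holo f
  per := by
    have h := periodic_of_vadd (F := ⇑f) (h := ((1 : ℕ) : ℝ)) fun τ => by
      have h1 := slash_T_zpow_apply (⇑f) 2 1 τ
      rw [zpow_one, slash_eq_of_mem f T_mem_Gamma0] at h1
      simpa using h1.symm
    exact h
  bdd := by
    have := CuspFormClass.zero_at_infty_slash f (1 : SL(2, ℤ))
    rw [SlashAction.slash_one] at this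
    exact this.isBoundedAtImInfty

/-- **The expansion of a cusp form in `z = exp (2πiτ/N)`.** -/
theorem infExp_cuspForm (f : CuspForm (Gamma0 N) 2) :
    InfExp N (⇑f) (qExpand ℂ N (HahnSeries.ofPowerSeries ℤ ℂ (qExpansion (1 : ℝ) (⇑f)))) := by
  have hN : 0 < N := Nat.pos_of_ne_zero (NeZero.ne N)
  have h1 : HasQExp 1 (⇑f) (HahnSeries.ofPowerSeries ℤ ℂ (qExpansion ((1 : ℕ) : ℝ) (⇑f))) :=
    ⟨IsMerInf.of_isHolInf (isHolInf_one f), qexpFun_of_isHolInf (isHolInf_one f)⟩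
  have h2 : InfExp 1 (⇑f) (HahnSeries.ofPowerSeries ℤ ℂ (qExpansion ((1 : ℕ) : ℝ) (⇑f))) :=
    fun τ => h1.hasSum τ
  have h3 := h2.comp_infAff (N := N) (a := 1) (d := 1) (e := N) 0 one_pos one_pos one_pos hN
    (by ring)
  simp only [infAff_one_zero_one, mul_one, infRoot_zero, infTwist_one, Nat.cast_one] at h3
  exact h3

end Fermat.Agent.Ribet.H634
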