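import Fermat.Agent.S24.H624.Laurent
import Fermat.Agent.S18.H602.LaurentDeriv
import Mathlib.NumberTheory.ModularForms.Derivative

/-!
# INC-AN / LOCAL (helper634), part 2: Taylor expansion of the derivative, and translates

* `derivH f`              : `D f = (2πi)⁻¹ df/dτ` as an element of `holoRing`;
* `taylorLaurent_derivH`  : `T_τ (D f) = (2πi)⁻¹ · d/dz (T_τ f)`;
* `D_comp_smul`           : `D (F ∘ γ) = (D F) ∣[2] γ` for `γ ∈ SL₂(ℤ)`.
-/

set_option autoImplicit false

noncomputable section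

open UpperHalfPlane hiding I
open Complex Derivative
open scoped Manifold Topology MatrixGroups ModularForm Real

namespace Fermat.Agent.Ribet.H634

open Fermat.Agent.S24.H624 Fermat.Agent.S18.H602

/-- the constant `(2πi)⁻¹` -/
def kap : ℂ := (2 * π * I)⁻¹

theorem kap_ne_zero : kap ≠ 0 := by
  unfold kap
  exact inv_ne_zero (by simp [Real.pi_ne_zero])

/-- `D f` as a holomorphic function -/
def derivH (f : holoRing) : holoRing :=
  ⟨D (f : ℍ → ℂ), normalizedDerivOfComplex_mdifferentiable f.2⟩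

theorem derivH_coe (f : holoRing) : ((derivH f : holoRing) : ℍ → ℂ) = D (f : ℍ → ℂ) := rfl

theorem taylorCoeff_D {f : ℍ → ℂ} (hf : MDiff f) (τ : ℍ) (n : ℕ) :
    taylorCoeff τ (D f) n = kap * (taylorCoeff τ f (n + 1) * ((n : ℂ) + 1)) := by
  unfold taylorCoeff
  have heq : ((D f) ∘ ofComplex) =ᶠ[𝓝 (τ : ℂ)] fun w => kap * deriv (f ∘ ofComplex) w := by
    filter_upwards [isOpen_upperHalfPlaneSet.mem_nhds τ.im_pos] with w hw
    simp only [Function.comp_apply, normalizedDerivOfComplex, ofComplex_apply_of_im_pos hw, kap]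
  rw [heq.iteratedDeriv_eq]
  have hcd : ContDiffAt ℂ (n : ℕ∞) (deriv (f ∘ ofComplex)) (τ : ℂ) :=
    ((analyticAt_of_mdiff hf τ).deriv).contDiffAt.of_le (by exact_mod_cast le_top)
  rw [iteratedDeriv_const_mul kap hcd, ← iteratedDeriv_succ', Nat.factorial_succ]
  have h1 : (n.factorial : ℂ) ≠ 0 := by exact_mod_cast n.factorial_ne_zero
  have h2 : ((n : ℂ) + 1) ≠ 0 := by exact_mod_cast n.succ_ne_zero
  push_cast
  field_simp

theorem taylorAt_derivH (τ : ℍ) (f : holoRing) :
    taylorAt τ (derivH f) = PowerSeries.C kap * PowerSeries.derivative ℂ (taylorAt τ f) := by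
  ext n
  rw [coeff_taylorAt, derivH_coe, taylorCoeff_D f.2, PowerSeries.coeff_C_mul,
    PowerSeries.coeff_derivative, coeff_taylorAt]

theorem taylorLaurent_derivH (τ : ℍ) (f : holoRing) :
    taylorLaurent τ (derivH f) = HahnSeries.C kap * dq (taylorLaurent τ f) := by
  rw [taylorLaurent_apply, taylorLaurent_apply, taylorAt_derivH, map_mul,
    HahnSeries.ofPowerSeries_C, dq_ofPowerSeries]

/-- `D (F ∘ γ) = (D F) ∣[2] γ` -/
theorem D_comp_smul {F : ℍ → ℂ} (hF : MDiff F) (γ : SL(2, ℤ)) (τ : ℍ) :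
    D (fun z : ℍ => F (γ • z)) τ = D F (γ • τ) * (denom γ τ) ^ (-2 : ℤ) := by
  have h := congrFun (normalizedDerivOfComplex_SL_slash (k := 0) hF (γ := γ)) τ
  have h0 : (F ∣[(0 : ℤ)] γ) = fun z : ℍ => F (γ • z) := by
    funext z
    rw [ModularForm.SL_slash_apply]
    simp
  rw [h0] at h
  rw [h]
  simp only [Pi.sub_apply, Int.cast_zero, zero_mul, sub_zero, zero_add]
  rw [ModularForm.SL_slash_apply]

end Fermat.Agent.Ribet.H634
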