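import Fermat.Agent.Ribet.H634.IncAnSpec
import Fermat.Agent.Ribet.H634.LocTaylor
import Fermat.Agent.Ribet.H634.LocCusp
import Fermat.Agent.Ribet.H634.LocForm
import Fermat.Agent.S29.H282.Dict
import Fermat.Agent.S24.Mod.H997HolBase

/-!
# INC-AN / LOCAL (helper634), part 5: the analytic identity `f = u · D t` and its translates

`f ∈ S₂(Γ₀(N))` with integral `q`-expansion `G`, `t, u ∈ F = FFK ℚ̄ N` with `G = u·θt` in `ℚ̄((q))`.
Writing `t = a/b`, `u = c/d` with `a, b, c, d ∈ R_N = ℚ̄[j(q^e) : e ∣ N]` and denoting by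
`A, B, C, D` their holomorphic avatars (`bridgeK`), we get on `ℍ`

  `f · D · B² = C · (D(A)·B - A·D(B))`                      (`identity_on_H`)

and, for every `γ ∈ SL₂(ℤ)`,

  `(f ∣[2] γ) · Dγ · Bγ² = Cγ · (D(Aγ)·Bγ - Aγ·D(Bγ))`      (`identity_translate`)

where `Xγ = X ∘ γ`.
-/

set_option autoImplicit false

noncomputable section

open UpperHalfPlane hiding I
open ModularCurve HahnSeries AlgebraicCurve ModularForm CongruenceSubgroup Derivative
open scoped MatrixGroups ModularForm Manifold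

namespace Fermat.Agent.Ribet.H634

open Fermat.Agent.S24 Fermat.Agent.S24.H997 Fermat.Agent.S24.H708 Fermat.Agent.S29.H282
  Fermat.Agent.S18.H602 Fermat.Agent.Ribet.H764.I3 Fermat.Agent.S24.H624

variable {N : ℕ} [NeZero N]

/-! ### `θ = q d/dq` -/

theorem isTheta_iff {k : Type} [Field k] (x x' : LaurentSeries k) :
    IsTheta x x' ↔ x' = single 1 1 * dq x := by
  constructor
  · intro h
    ext n
    rw [h n, coeff_single_mul, one_mul, dq_coeff, sub_add_cancel, zsmul_eq_mul]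
  · rintro rfl n
    rw [coeff_single_mul, one_mul, dq_coeff, sub_add_cancel, zsmul_eq_mul]

/-- `Φ (θ x) = N⁻¹ z d/dz (Φ x)` -/
theorem ΦK_theta (x : LaurentSeries Kbar) :
    ΦK ιK N (single 1 1 * dq x) = thN N (ΦK ιK N x) := by
  ext k
  rw [thN_coeff, ΦK_coeff, ΦK_coeff]
  have hN : (N : ℂ) ≠ 0 := by exact_mod_cast NeZero.ne N
  have hN' : (N : ℤ) ≠ 0 := by exact_mod_cast NeZero.ne N
  split_ifs with h
  · obtain ⟨m, rfl⟩ := h
    rw [Int.mul_ediv_cancel_left _ hN', coeff_single_mul, one_mul, dq_coeff, sub_add_cancel,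
      zsmul_eq_mul, map_mul, map_intCast]
    push_cast
    field_simp
  · simp

/-! ### expansions of the avatars -/

theorem hasQExp_hol (h : (holBase N).Hol) :
    HasQExp N (h : ℍ → ℂ) ((holBase N).qexp h) :=
  HasQExp.of_hasSum h.2.1 fun τ => expInf_spec (holToExp N h) τ

theorem hasQExp_bridge (r : RNK Kbar N) :
    HasQExp N (bridgeK ιK (holBase N) r : ℍ → ℂ) (ΦK ιK N (r : LaurentSeries Kbar)) := by
  have := hasQExp_hol (bridgeK ιK (holBase N) r)
  rwa [qexp_bridgeK] at this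

theorem mdiff_hol (h : (holBase N).Hol) : MDiff (h : ℍ → ℂ) := h.2.1

/-- the expansion of a cusp form with integral `q`-expansion -/
theorem hasQExp_cuspForm (f : CuspForm (Gamma0 N) 2) (c : ℕ → ℤ)
    (hc : ∀ n, ModularFormClass.qCoeff f n = (c n : ℂ)) :
    HasQExp N (⇑f) (ΦK ιK N (HahnSeries.ofPowerSeries ℤ Kbar
      (PowerSeries.mk fun n => (c n : Kbar)))) := by
  have h := infExp_cuspForm f
  have he : ΦK ιK N (HahnSeries.ofPowerSeries ℤ Kbar (PowerSeries.mk fun n => (c n : Kbar)))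
      = qExpand ℂ N (HahnSeries.ofPowerSeries ℤ ℂ (qExpansion (1 : ℝ) (⇑f))) := by
    show qExpand ℂ N (coeffMap ιK _) = _
    congr 1
    ext k
    rw [coeffMap_coeff, PowerSeries.coeff_coe, PowerSeries.coeff_coe]
    split_ifs with hk
    · simp
    · rw [PowerSeries.coeff_mk, map_intCast, ← hc]
      rfl
  rw [he]
  exact HasQExp.of_hasSum (ModularFormClass.holo f) fun τ => h τ

/-! ### the identity on `ℍ` -/

/-- the data of the problem: `G = u · θ t`, `t = a/b`, `u = c/d` -/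
structure Setup (N : ℕ) [NeZero N] where
  f : CuspForm (Gamma0 N) 2
  c : ℕ → ℤ
  hc : ∀ n, ModularFormClass.qCoeff f n = (c n : ℂ)
  t : FFK Kbar N
  u : FFK Kbar N
  t' : LaurentSeries Kbar
  hθ : IsTheta (t : LaurentSeries Kbar) t'
  hG : HahnSeries.ofPowerSeries ℤ Kbar (PowerSeries.mk fun n => (c n : Kbar))
    = (u : LaurentSeries Kbar) * t'
  ra : RNK Kbar N
  rb : RNK Kbar N
  rc : RNK Kbar N
  rd : RNK Kbar N
  hb : rb ≠ 0
  hd : rd ≠ 0
  ht : t = inclRNK Kbar N ra / inclRNK Kbar N rb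
  hu : u = inclRNK Kbar N rc / inclRNK Kbar N rd

namespace Setup

variable (S : Setup N)

/-- the avatars -/
def A : (holBase N).Hol := bridgeK ιK (holBase N) S.ra
def B : (holBase N).Hol := bridgeK ιK (holBase N) S.rb
def C : (holBase N).Hol := bridgeK ιK (holBase N) S.rc
def D' : (holBase N).Hol := bridgeK ιK (holBase N) S.rd

theorem inclb_ne : inclRNK Kbar N S.rb ≠ 0 := fun h =>
  S.hb (inclRNK_injective Kbar N (h.trans (map_zero _).symm))

theorem incld_ne : inclRNK Kbar N S.rd ≠ 0 := fun h =>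
  S.hd (inclRNK_injective Kbar N (h.trans (map_zero _).symm))

theorem t_mul_b : (S.t : LaurentSeries Kbar) * (S.rb : LaurentSeries Kbar)
    = (S.ra : LaurentSeries Kbar) := by
  have h : S.t * inclRNK Kbar N S.rb = inclRNK Kbar N S.ra := by
    rw [S.ht, div_mul_cancel₀ _ S.inclb_ne]
  exact congrArg Subtype.val h

theorem u_mul_d : (S.u : LaurentSeries Kbar) * (S.rd : LaurentSeries Kbar)
    = (S.rc : LaurentSeries Kbar) := by
  have h : S.u * inclRNK Kbar N S.rd = inclRNK Kbar N S.rc := by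
    rw [S.hu, div_mul_cancel₀ _ S.incld_ne]
  exact congrArg Subtype.val h

/-- the formal identity in `ℚ̄((q))` -/
theorem formal_identity :
    HahnSeries.ofPowerSeries ℤ Kbar (PowerSeries.mk fun n => (S.c n : Kbar))
        * (S.rd : LaurentSeries Kbar) * (S.rb : LaurentSeries Kbar) ^ 2
      = (S.rc : LaurentSeries Kbar) *
          (single 1 1 * dq (S.ra : LaurentSeries Kbar) * (S.rb : LaurentSeries Kbar)
            - (S.ra : LaurentSeries Kbar) * (single 1 1 * dq (S.rb : LaurentSeries Kbar))) := by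
  have h1 := (isTheta_iff _ _).mp S.hθ
  have h2 : dq (S.ra : LaurentSeries Kbar)
      = (S.t : LaurentSeries Kbar) * dq (S.rb : LaurentSeries Kbar)
        + (S.rb : LaurentSeries Kbar) * dq (S.t : LaurentSeries Kbar) := by
    rw [← S.t_mul_b, dq_mul]
  rw [S.hG, h1, h2, ← S.u_mul_d, ← S.t_mul_b]
  ring

/-- **The identity on `ℍ`.** -/
theorem identity_on_H (τ : ℍ) :
    S.f τ * (S.D' : ℍ → ℂ) τ * (S.B : ℍ → ℂ) τ ^ 2
      = (S.C : ℍ → ℂ) τ * (D (S.A : ℍ → ℂ) τ * (S.B : ℍ → ℂ) τ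
          - (S.A : ℍ → ℂ) τ * D (S.B : ℍ → ℂ) τ) := by
  have hA := hasQExp_bridge S.ra
  have hB := hasQExp_bridge S.rb
  have hC := hasQExp_bridge S.rc
  have hD := hasQExp_bridge S.rd
  have hf := hasQExp_cuspForm S.f S.c S.hc
  have hL := (hf.mul hD).mul (hB.pow 2)
  have hR := hC.mul (((hasQExp_D hA).mul hB).sub (hA.mul (hasQExp_D hB)))
  have hser := congrArg (ΦK ιK N) S.formal_identity
  simp only [map_mul, map_sub, map_pow] at hser
  have hser' : ΦK ιK N (HahnSeries.ofPowerSeries ℤ Kbar (PowerSeries.mk fun n => (S.c n : Kbar)))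
      * ΦK ιK N (S.rd : LaurentSeries Kbar) * ΦK ιK N (S.rb : LaurentSeries Kbar) ^ 2
      = ΦK ιK N (S.rc : LaurentSeries Kbar) *
        (thN N (ΦK ιK N (S.ra : LaurentSeries Kbar)) * ΦK ιK N (S.rb : LaurentSeries Kbar)
          - ΦK ιK N (S.ra : LaurentSeries Kbar) * thN N (ΦK ιK N (S.rb : LaurentSeries Kbar))) := by
    rw [← ΦK_theta, ← ΦK_theta, map_mul, map_mul]
    exact hser
  rw [hser'] at hL
  exact congrFun (hL.eq_of_eq hR) τ

end Setup

end Fermat.Agent.Ribet.H634
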